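import Mathlib
import Fermat.Agent.S23.Defs
import Fermat.Agent.Lib.DeltaSlash
import Fermat.Agent.Lib.DeltaLevelN
import Fermat.Agent.Lib.DeltaExpand
import Fermat.Agent.Lib.VVAnalytic

set_option autoImplicit false

/-!
# Dilation `f(z) ↦ f(N z)` of level one modular forms

For a modular form `F` of level one and weight `k`, the function `z ↦ F(N z)` is a modular form
of weight `k` on `Γ₀(N)`, and its `q`-expansion is the `q`-expansion of `F` with `q` replaced by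
`q ^ N`.
-/

namespace Fermat.Agent.S18.M11

open Complex Filter Topology
open UpperHalfPlane hiding I
open scoped MatrixGroups ModularForm Real Manifold
open Fermat.Agent.S23 (IsMF IsCF G0 Nice)
open Fermat.Agent.Lib.DeltaSlash (exists_decomp coe_sl_smul sl_denom_ne_zero im_affine_pos)

noncomputable section

/-- The function `z ↦ f(N z)`. -/
def dil (N : ℕ) (f : ℍ → ℂ) : ℍ → ℂ := fun z => f (ofComplex ((N : ℂ) * z))

lemma dil_apply (N : ℕ) (f : ℍ → ℂ) (z : ℍ) : dil N f z = f (ofComplex ((N : ℂ) * z)) := rfl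

/-- Transformation law of a level one form, in explicit coordinates. -/
lemma levelOne_smul {k : ℤ} (F : ModularForm 𝒮ℒ k) (δ : SL(2, ℤ)) (w : ℍ) :
    F (δ • w) = ((δ 1 0 : ℂ) * w + (δ 1 1 : ℂ)) ^ k * F w := by
  have h := SlashInvariantForm.slash_action_eqn''
    (Γ := (Matrix.SpecialLinearGroup.mapGL ℝ).range) F
    (γ := (δ : GL (Fin 2) ℝ)) (MonoidHom.mem_range.mpr ⟨δ, rfl⟩) w
  simp [denom] at h
  rw [← h, ModularGroup.sl_moeb]

/-- Explicit formula for every `SL(2,ℤ)`-translate of `F(N z)`. -/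
theorem dil_slash (N : ℕ) [NeZero N] {k : ℤ} (F : ModularForm 𝒮ℒ k) (γ : SL(2, ℤ)) :
    ∃ a b d : ℕ, a * d = N ∧ b < d ∧ (d = 1 ↔ (N : ℤ) ∣ γ 1 0) ∧
      ∀ z : ℍ, (dil N F ∣[k] γ) z =
        ((d : ℂ) ^ k)⁻¹ * F (ofComplex (((a : ℂ) * z + b) / d)) := by
  obtain ⟨a, b, d, δ, had, hbd, hd1, h00, h01, h10, h11⟩ := exists_decomp N γ
  refine ⟨a, b, d, had, hbd, hd1, fun z => ?_⟩
  have hN0 : N ≠ 0 := NeZero.ne N
  have ha0 : a ≠ 0 := by rintro rfl; simp at had; exact hN0 had.symm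
  have hd0 : d ≠ 0 := by rintro rfl; simp at had; exact hN0 had.symm
  have haC : (a : ℂ) ≠ 0 := by exact_mod_cast ha0
  have hdC : (d : ℂ) ≠ 0 := by exact_mod_cast hd0
  have hwim : 0 < (((a : ℂ) * z + b) / d).im := im_affine_pos ha0 hd0 b z
  obtain ⟨w, hw⟩ : ∃ w : ℍ, (w : ℂ) = ((a : ℂ) * z + b) / d := ⟨⟨_, hwim⟩, rfl⟩
  have hden := sl_denom_ne_zero γ z
  have hdenδ := sl_denom_ne_zero δ w
  have c00 : (δ 0 0 : ℂ) * a = N * (γ 0 0 : ℂ) := by exact_mod_cast h00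
  have c01 : (δ 0 0 : ℂ) * b + (δ 0 1 : ℂ) * d = N * (γ 0 1 : ℂ) := by exact_mod_cast h01
  have c10 : (δ 1 0 : ℂ) * a = (γ 1 0 : ℂ) := by exact_mod_cast h10
  have c11 : (δ 1 0 : ℂ) * b + (δ 1 1 : ℂ) * d = (γ 1 1 : ℂ) := by exact_mod_cast h11
  have hdenrel : (δ 1 0 : ℂ) * w + (δ 1 1 : ℂ) = ((γ 1 0 : ℂ) * z + (γ 1 1 : ℂ)) / d := by
    rw [hw]; field_simp; linear_combination (z : ℂ) * c10 + c11
  have key : ofComplex ((N : ℂ) * ((γ • z : ℍ) : ℂ)) = δ • w := by
    have him : 0 < ((N : ℂ) * ((γ • z : ℍ) : ℂ)).im := by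
      have : ((N : ℂ) * ((γ • z : ℍ) : ℂ)).im = N * (γ • z : ℍ).im := by simp
      rw [this]
      have := (γ • z : ℍ).im_pos
      positivity
    rw [ofComplex_apply_of_im_pos him]
    apply UpperHalfPlane.ext
    show (N : ℂ) * ((γ • z : ℍ) : ℂ) = ((δ • w : ℍ) : ℂ)
    rw [coe_sl_smul, coe_sl_smul, hdenrel]
    have hnum : (δ 0 0 : ℂ) * w + (δ 0 1 : ℂ) =
        ((N : ℂ) * ((γ 0 0 : ℂ) * z + (γ 0 1 : ℂ))) / d := by
      rw [hw]; field_simp; linear_combination (z : ℂ) * c00 + c01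
    rw [hnum]
    field_simp
  rw [ModularForm.SL_slash_apply]
  simp only [dil]
  rw [key, levelOne_smul, hdenrel]
  have : denom (Matrix.SpecialLinearGroup.toGL
      ((Matrix.SpecialLinearGroup.map (Int.castRingHom ℝ)) γ)) z =
      (γ 1 0 : ℂ) * z + (γ 1 1 : ℂ) := by
    simp [denom]
  rw [this]
  have hw' : ofComplex (((a : ℂ) * z + b) / d) = w := by
    rw [ofComplex_apply_of_im_pos hwim]; exact UpperHalfPlane.ext hw.symm
  rw [hw', div_zpow, zpow_neg]
  field_simp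

theorem dil_slash_of_mem (N : ℕ) [NeZero N] {k : ℤ} (F : ModularForm 𝒮ℒ k) {γ : SL(2, ℤ)}
    (hγ : γ ∈ CongruenceSubgroup.Gamma0 N) : dil N F ∣[k] γ = dil N F := by
  obtain ⟨a, b, d, had, hbd, hd1, hform⟩ := dil_slash N F γ
  have hd : d = 1 := hd1.mpr ((Fermat.Agent.Lib.DeltaLevelN.mem_Gamma0_iff_dvd N γ).mp hγ)
  subst hd
  have hb : b = 0 := by omega
  subst hb
  have ha : a = N := by simpa using had
  subst ha
  ext z
  rw [hform z, dil_apply]
  simp

theorem mdiff_dil (N : ℕ) [NeZero N] {f : ℍ → ℂ} (hf : MDiff f) : MDiff (dil N f) := by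
  rw [UpperHalfPlane.mdifferentiable_iff]
  have hE : DifferentiableOn ℂ (f ∘ ofComplex) {z | 0 < z.im} :=
    (UpperHalfPlane.mdifferentiable_iff).mp hf
  have hN0 : (0 : ℝ) < N := Nat.cast_pos.mpr (Nat.pos_of_ne_zero (NeZero.ne N))
  have hmaps : Set.MapsTo (fun w : ℂ => (N : ℂ) * w) {z | 0 < z.im} {z | 0 < z.im} := by
    intro w hw
    simp only [Set.mem_ofPred_eq] at hw ⊢
    have : ((N : ℂ) * w).im = N * w.im := by simp
    rw [this]
    positivity
  have hmap : DifferentiableOn ℂ (fun w : ℂ => (N : ℂ) * w) {z | 0 < z.im} :=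
    (differentiable_id.const_mul _).differentiableOn
  refine (hE.comp hmap hmaps).congr ?_
  intro w hw
  simp only [Set.mem_ofPred_eq] at hw
  simp [dil, ofComplex_apply_of_im_pos hw]

theorem isBounded_dil_slash (N : ℕ) [NeZero N] {k : ℤ} (F : ModularForm 𝒮ℒ k) (γ : SL(2, ℤ)) :
    IsBoundedAtImInfty (dil N F ∣[k] γ) := by
  obtain ⟨a, b, d, had, hbd, hd1, hform⟩ := dil_slash N F γ
  have hN0 : N ≠ 0 := NeZero.ne N
  have ha0 : a ≠ 0 := by rintro rfl; simp at had; exact hN0 had.symm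
  have hd0 : d ≠ 0 := by rintro rfl; simp at had; exact hN0 had.symm
  have h2 : (F : ℍ → ℂ) =O[atImInfty] (fun _ : ℍ => (1 : ℝ)) :=
    (Fermat.Agent.S23.IsMF.niceSL ⟨F, rfl⟩).bdd
  have h1 : (fun z : ℍ => F (ofComplex (((a : ℂ) * z + b) / d))) =O[atImInfty]
      (fun _ : ℍ => (1 : ℝ)) :=
    h2.comp_tendsto (Fermat.Agent.Lib.DeltaLevelN.tendsto_ofComplex_affine ha0 hd0 b)
  have h3 := h1.const_mul_left (((d : ℂ) ^ k)⁻¹)
  have h4 : (dil N F ∣[k] γ) =
      fun z : ℍ => ((d : ℂ) ^ k)⁻¹ * F (ofComplex (((a : ℂ) * z + b) / d)) := funext hform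
  rw [h4]
  exact h3

/-- `F(N z)` is a modular form of weight `k` on `Γ₀(N)`. -/
theorem isMF_dil (N : ℕ) [NeZero N] {k : ℤ} (F : ModularForm 𝒮ℒ k) : IsMF (G0 N) k (dil N F) :=
  Fermat.Agent.Lib.VVAnalytic.isMF_G0_of N k (dil N F) (mdiff_dil N (ModularFormClass.holo F))
    (fun _ hγ => dil_slash_of_mem N F hγ) (isBounded_dil_slash N F)

/-- The `q`-expansion of `F(N z)` converges. -/
theorem hasSum_dil (N : ℕ) [NeZero N] {k : ℤ} (F : ModularForm 𝒮ℒ k) (z : ℍ) :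
    HasSum (fun j : ℕ => (if N ∣ j then (qExpansion 1 F).coeff (j / N) else 0) •
      Function.Periodic.qParam 1 z ^ j) (dil N F z) := by
  have hNpos : 0 < N := Nat.pos_of_ne_zero (NeZero.ne N)
  have him : 0 < ((N : ℂ) * z).im := by
    have := im_affine_pos (a := N) (d := 1) (NeZero.ne N) one_ne_zero 0 z
    simpa using this
  have h := (Fermat.Agent.S23.IsMF.niceSL (f := F) ⟨F, rfl⟩).hasSum (ofComplex ((N : ℂ) * z))
  have hq : Function.Periodic.qParam 1 ((ofComplex ((N : ℂ) * z) : ℍ) : ℂ) =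
      Function.Periodic.qParam 1 z ^ N := by
    rw [ofComplex_apply_of_im_pos him]
    exact Fermat.Agent.Lib.DeltaExpand.qParam_one_mul N z
  simp only [hq] at h
  have h' : HasSum (fun n => (qExpansion 1 F).coeff n * Function.Periodic.qParam 1 z ^ (N * n))
      (dil N F z) := by
    have h2 : (fun n => (qExpansion 1 F).coeff n * Function.Periodic.qParam 1 z ^ (N * n)) =
        fun n => (qExpansion 1 F).coeff n • (Function.Periodic.qParam 1 z ^ N) ^ n := by
      funext n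
      rw [pow_mul, smul_eq_mul]
    rw [h2]
    exact h
  exact Fermat.Agent.Lib.DeltaExpand.hasSum_dilate hNpos
    (f := fun n => (qExpansion 1 F).coeff n) (Function.Periodic.qParam 1 z) h'

/-- The `q`-expansion of `F(N z)` is the `q`-expansion of `F` with `q` replaced by `q ^ N`. -/
theorem qExpansion_dil (N : ℕ) [NeZero N] {k : ℤ} (F : ModularForm 𝒮ℒ k) :
    qExpansion 1 (dil N F) = PowerSeries.expand N (NeZero.ne N) (qExpansion 1 F) := by
  ext n
  obtain ⟨-, -, -, hcoef, -⟩ := Fermat.Agent.Lib.DeltaExpand.expansion_package (h := 1)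
    (c := fun j => if N ∣ j then (qExpansion 1 F).coeff (j / N) else 0) one_pos
    (mdiff_dil N (ModularFormClass.holo F)) (fun z => hasSum_dil N F z)
  rw [hcoef n, PowerSeries.coeff_expand]

end

end Fermat.Agent.S18.M11
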