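import Mathlib
import Fermat.Agent.S18.M11.Dilate
import Fermat.Agent.S18.M11.Core
import Fermat.Agent.Lib.JqAnalytic
import Fermat.Agent.Lib.Gamma0Count
import Fermat.Agent.S28.DeltaProd
import Fermat.Prelude.Thm_ModularForm_sturm_bound_Gamma0

set_option autoImplicit false

/-!
# The Hauptmodul identities of level 2 and 3 as identities of formal `q`-series over `ℤ`

With `A = eisenstein4` (`E₄`), `D = X * dedekindEtaUnit` (`Δ`) and `e_M` the substitution
`X ↦ X ^ M`: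

* level 2: `(16 e₂A - A)² (A - e₂A) = 54000 D`, `(16 e₂A - A) (A - e₂A)² = 864000 e₂D`;
* level 3: `(81 e₃A - A)³ (A - e₃A) = 12288000 (A + 9 e₃A) D`,
  `(81 e₃A - A) (A - e₃A)³ = 110592000 (A + 9 e₃A) e₃D`.

Each is an identity of modular forms on `Γ₀(2)` (weight 12) resp. `Γ₀(3)` (weight 16), proved
with the Sturm bound.
-/

namespace Fermat.Agent.S18.M11

open Complex Filter Topology
open UpperHalfPlane hiding I
open scoped MatrixGroups ModularForm Real Manifold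
open Fermat.Agent.S23 (IsMF IsCF G0 Nice)
open ModularCurve (eisenstein4 etaProd dedekindEtaUnit)
open PowerSeries (X C coeff)

noncomputable section

/-! ### Sturm bound for formal series -/

theorem formal_eq_zero (N : ℕ) [NeZero N] (k : ℤ) {f : ℍ → ℂ} (hf : IsMF (G0 N) k f)
    (Φ : PowerSeries ℤ) (hq : qExpansion 1 f = Φ.map (Int.castRingHom ℂ)) (B : ℕ)
    (hB : (k * (CongruenceSubgroup.Gamma0 N).index).toNat / 12 < B)
    (hΦ : (X : PowerSeries ℤ) ^ B ∣ Φ) : Φ = 0 := by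
  obtain ⟨G, rfl⟩ := hf
  have hG : G = 0 := by
    apply ModularForm.sturm_bound_Gamma0 N
    intro n hn
    rw [hq, PowerSeries.coeff_map, (PowerSeries.X_pow_dvd_iff.mp hΦ) n (by omega)]
    simp
  have h0 : qExpansion 1 (⇑G) = 0 := by
    rw [hG]
    exact qExpansion_zero 1
  rw [hq] at h0
  have hinj : Function.Injective (PowerSeries.map (Int.castRingHom ℂ)) :=
    PowerSeries.map_injective _ Int.cast_injective
  exact hinj (by rw [h0, map_zero])

/-! ### Truncations -/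

/-- The image of a power series in a ring where the image of `X` is nilpotent. -/
theorem map_eq_sum {Q : Type*} [CommRing Q] (φ : PowerSeries ℤ →+* Q) (B : ℕ)
    (hφ : φ X ^ B = 0) (f : PowerSeries ℤ) :
    φ f = ∑ m ∈ Finset.range B, ((coeff m f : ℤ) : Q) * φ X ^ m := by
  have hdvd : (X : PowerSeries ℤ) ^ B ∣ f - ∑ m ∈ Finset.range B, C (coeff m f) * X ^ m := by
    rw [PowerSeries.X_pow_dvd_iff]
    intro m hm
    rw [map_sub, map_sum]
    simp only [PowerSeries.coeff_C_mul_X_pow]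
    rw [Finset.sum_ite_eq, if_pos (Finset.mem_range.mpr hm), sub_self]
  obtain ⟨g, hg⟩ := hdvd
  have h1 : f = X ^ B * g + ∑ m ∈ Finset.range B, C (coeff m f) * X ^ m := by
    rw [← hg]; ring
  have h2 := congrArg φ h1
  rw [map_add, map_mul, map_pow, hφ, zero_mul, zero_add, map_sum] at h2
  rw [h2]
  refine Finset.sum_congr rfl fun m _ => ?_
  rw [map_mul, map_pow]
  congr 1
  exact eq_intCast (φ.comp (C (R := ℤ))) _

/-- The image of the Euler product in a ring where the image of `X` is nilpotent. -/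
theorem map_etaProd {Q : Type*} [CommRing Q] (φ : PowerSeries ℤ →+* Q) (M : ℕ)
    (hφ : φ X ^ (M + 1) = 0) :
    φ etaProd = ∏ n ∈ Finset.range M, (1 - φ X ^ (n + 1)) := by
  obtain ⟨g, hg⟩ := Fermat.Agent.S28.DeltaProd.X_pow_dvd_etaProd_sub M
  have h1 : etaProd = X ^ (M + 1) * g + ∏ n ∈ Finset.range M, (1 - X ^ (n + 1)) := by
    rw [← hg]; ring
  have h2 := congrArg φ h1
  rw [map_add, map_mul, map_pow, hφ, zero_mul, zero_add, map_prod] at h2
  rw [h2]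
  refine Finset.prod_congr rfl fun m _ => ?_
  rw [map_sub, map_one, map_pow]

theorem coeff_eisenstein4 (n : ℕ) :
    coeff n eisenstein4 = if n = 0 then 1 else 240 * ∑ d ∈ n.divisors, (d : ℤ) ^ 3 := by
  rw [eisenstein4, PowerSeries.coeff_mk]

/-! ### Functions with an integral `q`-expansion -/

/-- `f` is nice and its `q`-expansion is the image of the integral series `Φ`. -/
def HasQ (f : ℍ → ℂ) (Φ : PowerSeries ℤ) : Prop :=
  Nice f ∧ qExpansion 1 f = Φ.map (Int.castRingHom ℂ)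

theorem HasQ.add {f g : ℍ → ℂ} {Φ Ψ : PowerSeries ℤ} (hf : HasQ f Φ) (hg : HasQ g Ψ) :
    HasQ (f + g) (Φ + Ψ) :=
  ⟨hf.1.add hg.1, by rw [hf.1.qExp_add hg.1, hf.2, hg.2, map_add]⟩

theorem HasQ.sub {f g : ℍ → ℂ} {Φ Ψ : PowerSeries ℤ} (hf : HasQ f Φ) (hg : HasQ g Ψ) :
    HasQ (f - g) (Φ - Ψ) :=
  ⟨hf.1.sub hg.1, by rw [hf.1.qExp_sub hg.1, hf.2, hg.2, map_sub]⟩

theorem HasQ.mul {f g : ℍ → ℂ} {Φ Ψ : PowerSeries ℤ} (hf : HasQ f Φ) (hg : HasQ g Ψ) :
    HasQ (f * g) (Φ * Ψ) :=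
  ⟨hf.1.mul hg.1, by rw [hf.1.qExp_mul hg.1, hf.2, hg.2, map_mul]⟩

theorem HasQ.pow {f : ℍ → ℂ} {Φ : PowerSeries ℤ} (hf : HasQ f Φ) (n : ℕ) :
    HasQ (f ^ n) (Φ ^ n) :=
  ⟨hf.1.pow n, by rw [hf.1.qExp_pow n, hf.2, map_pow]⟩

theorem HasQ.smul {f : ℍ → ℂ} {Φ : PowerSeries ℤ} (hf : HasQ f Φ) (n : ℤ) :
    HasQ ((n : ℂ) • f) ((n : PowerSeries ℤ) * Φ) := by
  refine ⟨hf.1.smul _, ?_⟩
  rw [hf.1.qExp_smul, hf.2]
  ext m
  rw [map_mul, map_intCast, ← map_intCast (C (R := ℂ)) n, PowerSeries.coeff_C_mul,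
    PowerSeries.coeff_map, PowerSeries.coeff_smul]
  simp

theorem hasQ_E4 : HasQ (ModularForm.E₄ : ℍ → ℂ) eisenstein4 :=
  ⟨Fermat.Agent.S23.IsMF.niceSL ⟨ModularForm.E₄, rfl⟩, Fermat.Agent.Lib.JqAnalytic.qExpansion_E₄_eq⟩

/-- `Δ` as a modular form of level one. -/
def DeltaMF : ModularForm 𝒮ℒ 12 := ModularFormClass.modularForm CuspForm.discriminant

theorem coe_DeltaMF : (DeltaMF : ℍ → ℂ) = ModularForm.discriminant := rfl

theorem hasQ_Delta : HasQ (DeltaMF : ℍ → ℂ) (X * dedekindEtaUnit) :=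
  ⟨Fermat.Agent.S23.IsMF.niceSL ⟨DeltaMF, rfl⟩,
    Fermat.Agent.Lib.JqAnalytic.qExpansion_discriminant_eq_X_mul⟩

theorem hasQ_dil (M : ℕ) [NeZero M] {k : ℤ} (F : ModularForm 𝒮ℒ k) {Φ : PowerSeries ℤ}
    (hF : HasQ (F : ℍ → ℂ) Φ) : HasQ (dil M F) (PowerSeries.expand M (NeZero.ne M) Φ) :=
  ⟨(isMF_dil M F).niceG0, by rw [qExpansion_dil, hF.2, PowerSeries.map_expand]⟩

/-! ### Divisibility by a power of `X` through quotient rings -/

theorem X_pow_dvd_of_forall_hom (B : ℕ) (Φ : PowerSeries ℤ)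
    (h : ∀ (Q : Type) [CommRing Q] (φ : PowerSeries ℤ →+* Q), φ X ^ B = 0 → φ Φ = 0) :
    (X : PowerSeries ℤ) ^ B ∣ Φ := by
  have h1 := h (PowerSeries ℤ ⧸ Ideal.span {(X : PowerSeries ℤ) ^ B}) (Ideal.Quotient.mk _)
    (by rw [← map_pow]; exact Ideal.Quotient.eq_zero_iff_mem.mpr (Ideal.mem_span_singleton_self _))
  exact Ideal.mem_span_singleton.mp (Ideal.Quotient.eq_zero_iff_mem.mp h1)

theorem coeff_eisenstein4_vals :
    coeff 0 eisenstein4 = 1 ∧ coeff 1 eisenstein4 = 240 ∧ coeff 2 eisenstein4 = 2160 ∧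
      coeff 3 eisenstein4 = 6720 ∧ coeff 4 eisenstein4 = 17520 ∧ coeff 5 eisenstein4 = 30240 := by
  refine ⟨?_, ?_, ?_, ?_, ?_, ?_⟩ <;> rw [coeff_eisenstein4] <;> decide

section Hom

variable {Q : Type*} [CommRing Q] (φ : PowerSeries ℤ →+* Q)

theorem map_eisenstein4_four (hφ : φ X ^ 4 = 0) :
    φ eisenstein4 = 1 + 240 * φ X + 2160 * φ X ^ 2 + 6720 * φ X ^ 3 := by
  obtain ⟨h0, h1, h2, h3, -, -⟩ := coeff_eisenstein4_vals
  rw [map_eq_sum φ 4 hφ]
  simp [Finset.sum_range_succ, h0, h1, h2, h3]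

theorem map_eisenstein4_six (hφ : φ X ^ 6 = 0) :
    φ eisenstein4 = 1 + 240 * φ X + 2160 * φ X ^ 2 + 6720 * φ X ^ 3 + 17520 * φ X ^ 4 +
      30240 * φ X ^ 5 := by
  obtain ⟨h0, h1, h2, h3, h4, h5⟩ := coeff_eisenstein4_vals
  rw [map_eq_sum φ 6 hφ]
  simp [Finset.sum_range_succ, h0, h1, h2, h3, h4, h5]

theorem map_eisenstein4_two (hφ : φ X ^ 2 = 0) : φ eisenstein4 = 1 + 240 * φ X := by
  obtain ⟨h0, h1, -, -, -, -⟩ := coeff_eisenstein4_vals
  rw [map_eq_sum φ 2 hφ]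
  simp [Finset.sum_range_succ, h0, h1]

theorem map_etaProd_two (hφ : φ X ^ 2 = 0) : φ etaProd = 1 - φ X := by
  rw [map_etaProd φ 1 hφ]
  simp

theorem map_etaProd_four (hφ : φ X ^ 4 = 0) : φ etaProd = 1 - φ X - φ X ^ 2 := by
  rw [map_etaProd φ 3 hφ]
  simp only [Finset.prod_range_succ, Finset.prod_range_zero]
  linear_combination (1 + φ X - φ X ^ 2) * hφ

theorem map_etaProd_six (hφ : φ X ^ 6 = 0) : φ etaProd = 1 - φ X - φ X ^ 2 + φ X ^ 5 := by
  rw [map_etaProd φ 5 hφ]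
  simp only [Finset.prod_range_succ, Finset.prod_range_zero]
  linear_combination (1 + φ X - φ X ^ 2 - φ X ^ 3 - φ X ^ 4 + φ X ^ 7 + φ X ^ 8 - φ X ^ 9) * hφ

/-- composition with the substitution `X ↦ X ^ M`. -/
def compExpand (M : ℕ) (hM : M ≠ 0) : PowerSeries ℤ →+* Q :=
  φ.comp (PowerSeries.expand (R := ℤ) M hM).toRingHom

theorem compExpand_apply (M : ℕ) (hM : M ≠ 0) (f : PowerSeries ℤ) :
    compExpand φ M hM f = φ (PowerSeries.expand M hM f) := rfl

theorem compExpand_X (M : ℕ) (hM : M ≠ 0) : compExpand φ M hM X = φ X ^ M := by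
  rw [compExpand_apply, PowerSeries.expand_X, map_pow]

theorem map_expand_eisenstein4 (M : ℕ) (hM : M ≠ 0) (hφ : φ X ^ (M * 2) = 0) :
    φ (PowerSeries.expand M hM eisenstein4) = 1 + 240 * φ X ^ M := by
  have h := map_eisenstein4_two (compExpand φ M hM) (by rw [compExpand_X, ← pow_mul]; exact hφ)
  rwa [compExpand_X, compExpand_apply] at h

theorem map_expand_etaProd (M : ℕ) (hM : M ≠ 0) (hφ : φ X ^ (M * 2) = 0) :
    φ (PowerSeries.expand M hM etaProd) = 1 - φ X ^ M := by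
  have h := map_etaProd_two (compExpand φ M hM) (by rw [compExpand_X, ← pow_mul]; exact hφ)
  rwa [compExpand_X, compExpand_apply] at h

end Hom

theorem index_two : (CongruenceSubgroup.Gamma0 2).index = 3 := by
  rw [Fermat.Agent.Lib.Gamma0Count.index_Gamma0 2 two_ne_zero]
  have := Fermat.Agent.Lib.Gamma0Count.dedekindPsi_mul_of_not_dvd (p := 2) (M := 1)
    Nat.prime_two one_ne_zero (by norm_num)
  simpa using this

theorem index_three : (CongruenceSubgroup.Gamma0 3).index = 4 := by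
  rw [Fermat.Agent.Lib.Gamma0Count.index_Gamma0 3 three_ne_zero]
  have := Fermat.Agent.Lib.Gamma0Count.dedekindPsi_mul_of_not_dvd (p := 3) (M := 1)
    Nat.prime_three one_ne_zero (by norm_num)
  simpa using this

/-! ### The identities -/

/-- `E₄(q^M)` as a formal series. -/
def eisM (M : ℕ) [NeZero M] : PowerSeries ℤ :=
  PowerSeries.expand M (NeZero.ne M) eisenstein4

/-- `Δ(q)` as a formal series. -/
def deltaF : PowerSeries ℤ := X * dedekindEtaUnit

/-- `Δ(q^M)` as a formal series. -/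
def deltaM (M : ℕ) [NeZero M] : PowerSeries ℤ :=
  PowerSeries.expand M (NeZero.ne M) deltaF

theorem eisM_def (M : ℕ) [NeZero M] :
    eisM M = PowerSeries.expand M (NeZero.ne M) eisenstein4 := rfl

theorem deltaF_def : deltaF = X * dedekindEtaUnit := rfl

theorem deltaM_def (M : ℕ) [NeZero M] :
    deltaM M = PowerSeries.expand M (NeZero.ne M) deltaF := rfl

theorem hasQ_eisM (M : ℕ) [NeZero M] : HasQ (dil M ModularForm.E₄) (eisM M) :=
  hasQ_dil M ModularForm.E₄ hasQ_E4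

theorem hasQ_deltaF : HasQ (DeltaMF : ℍ → ℂ) deltaF := hasQ_Delta

theorem hasQ_deltaM (M : ℕ) [NeZero M] : HasQ (dil M DeltaMF) (deltaM M) :=
  hasQ_dil M DeltaMF hasQ_Delta

theorem isMF_E4 (N : ℕ) : IsMF (G0 N) 4 (ModularForm.E₄ : ℍ → ℂ) :=
  Fermat.Agent.S23.IsMF.toG0 N ⟨ModularForm.E₄, rfl⟩

theorem isMF_Delta (N : ℕ) : IsMF (G0 N) 12 (DeltaMF : ℍ → ℂ) :=
  Fermat.Agent.S23.IsMF.toG0 N ⟨DeltaMF, rfl⟩

section Hom

variable {Q : Type*} [CommRing Q] (φ : PowerSeries ℤ →+* Q)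

theorem map_deltaF : φ deltaF = φ X * φ etaProd ^ 24 := by
  rw [deltaF, dedekindEtaUnit, map_mul, map_pow]

theorem map_eisM (M : ℕ) [NeZero M] (hφ : φ X ^ (M * 2) = 0) :
    φ (eisM M) = 1 + 240 * φ X ^ M :=
  map_expand_eisenstein4 φ M (NeZero.ne M) hφ

theorem map_deltaM (M : ℕ) [NeZero M] (hφ : φ X ^ (M * 2) = 0) :
    φ (deltaM M) = φ X ^ M * (1 - φ X ^ M) ^ 24 := by
  rw [deltaM, deltaF, dedekindEtaUnit, map_mul, map_pow, PowerSeries.expand_X, map_mul, map_pow,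
    map_pow, map_expand_etaProd φ M (NeZero.ne M) hφ]

end Hom

/-- **Level 2, first identity**: `(16 E₄(q²) - E₄(q))² (E₄(q) - E₄(q²)) = 54000 Δ(q)`. -/
theorem ident_two_a :
    (16 * eisM 2 - eisenstein4) ^ 2 * (eisenstein4 - eisM 2) = 54000 * deltaF := by
  have hA := hasQ_E4
  have hB := hasQ_eisM 2
  have hD := hasQ_deltaF
  have hq := (((hB.smul 16).sub hA).pow 2).mul (hA.sub hB) |>.sub (hD.smul 54000)
  have hmf : IsMF (G0 2) 12 ((((16 : ℤ) : ℂ) • dil 2 ModularForm.E₄ - ModularForm.E₄) ^ 2 *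
      (ModularForm.E₄ - dil 2 ModularForm.E₄) - ((54000 : ℤ) : ℂ) • DeltaMF) := by
    have h1 : IsMF (G0 2) 4 (((16 : ℤ) : ℂ) • dil 2 ModularForm.E₄ - ModularForm.E₄) :=
      ((isMF_dil 2 ModularForm.E₄).smul _).sub (isMF_E4 2)
    have h2 : IsMF (G0 2) 4 ((ModularForm.E₄ : ℍ → ℂ) - dil 2 ModularForm.E₄) :=
      (isMF_E4 2).sub (isMF_dil 2 ModularForm.E₄)
    exact (((h1.pow 2).mul h2).weight_congr (by norm_num)).sub ((isMF_Delta 2).smul _)
  have h0 := formal_eq_zero 2 12 hmf _ hq.2 4 (by rw [index_two]; decide) (by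
    apply X_pow_dvd_of_forall_hom
    intro Q _ φ hφ
    have e1 := map_eisenstein4_four φ hφ
    have e2 := map_eisM φ 2 hφ
    have e3 : φ deltaF = φ X * (1 - φ X - φ X ^ 2) ^ 24 := by
      rw [map_deltaF, map_etaProd_four φ hφ]
    simp only [map_sub, map_mul, map_pow, map_intCast, e1, e2, e3]
    have := core_two_a (φ X) hφ
    push_cast
    linear_combination this)
  have h1 : ((16 : ℤ) : PowerSeries ℤ) = 16 := by norm_num
  have h2 : ((54000 : ℤ) : PowerSeries ℤ) = 54000 := by norm_num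
  rw [h1, h2] at h0
  exact sub_eq_zero.mp h0

/-- **Level 2, second identity**: `(16 E₄(q²) - E₄(q)) (E₄(q) - E₄(q²))² = 864000 Δ(q²)`. -/
theorem ident_two_b :
    (16 * eisM 2 - eisenstein4) * (eisenstein4 - eisM 2) ^ 2 = 864000 * deltaM 2 := by
  have hA := hasQ_E4
  have hB := hasQ_eisM 2
  have hD := hasQ_deltaM 2
  have hq := ((hB.smul 16).sub hA).mul ((hA.sub hB).pow 2) |>.sub (hD.smul 864000)
  have hmf : IsMF (G0 2) 12 ((((16 : ℤ) : ℂ) • dil 2 ModularForm.E₄ - ModularForm.E₄) *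
      (ModularForm.E₄ - dil 2 ModularForm.E₄) ^ 2 - ((864000 : ℤ) : ℂ) • dil 2 DeltaMF) := by
    have h1 : IsMF (G0 2) 4 (((16 : ℤ) : ℂ) • dil 2 ModularForm.E₄ - ModularForm.E₄) :=
      ((isMF_dil 2 ModularForm.E₄).smul _).sub (isMF_E4 2)
    have h2 : IsMF (G0 2) 4 ((ModularForm.E₄ : ℍ → ℂ) - dil 2 ModularForm.E₄) :=
      (isMF_E4 2).sub (isMF_dil 2 ModularForm.E₄)
    exact ((h1.mul (h2.pow 2)).weight_congr (by norm_num)).sub ((isMF_dil 2 DeltaMF).smul _)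
  have h0 := formal_eq_zero 2 12 hmf _ hq.2 4 (by rw [index_two]; decide) (by
    apply X_pow_dvd_of_forall_hom
    intro Q _ φ hφ
    have e1 := map_eisenstein4_four φ hφ
    have e2 := map_eisM φ 2 hφ
    have e3 := map_deltaM φ 2 hφ
    simp only [map_sub, map_mul, map_pow, map_intCast, e1, e2, e3]
    have := core_two_b (φ X) hφ
    push_cast
    linear_combination this)
  have h1 : ((16 : ℤ) : PowerSeries ℤ) = 16 := by norm_num
  have h2 : ((864000 : ℤ) : PowerSeries ℤ) = 864000 := by norm_num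
  rw [h1, h2] at h0
  exact sub_eq_zero.mp h0

/-- **Level 3, first identity**:
`(81 E₄(q³) - E₄(q))³ (E₄(q) - E₄(q³)) = 12288000 (E₄(q) + 9 E₄(q³)) Δ(q)`. -/
theorem ident_three_a :
    (81 * eisM 3 - eisenstein4) ^ 3 * (eisenstein4 - eisM 3) =
      12288000 * ((eisenstein4 + 9 * eisM 3) * deltaF) := by
  have hA := hasQ_E4
  have hB := hasQ_eisM 3
  have hD := hasQ_deltaF
  have hq := (((hB.smul 81).sub hA).pow 3).mul (hA.sub hB) |>.sub
    (((hA.add (hB.smul 9)).mul hD).smul 12288000)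
  have hmf : IsMF (G0 3) 16 ((((81 : ℤ) : ℂ) • dil 3 ModularForm.E₄ - ModularForm.E₄) ^ 3 *
      (ModularForm.E₄ - dil 3 ModularForm.E₄) - ((12288000 : ℤ) : ℂ) •
        ((ModularForm.E₄ + ((9 : ℤ) : ℂ) • dil 3 ModularForm.E₄) * DeltaMF)) := by
    have h1 : IsMF (G0 3) 4 (((81 : ℤ) : ℂ) • dil 3 ModularForm.E₄ - ModularForm.E₄) :=
      ((isMF_dil 3 ModularForm.E₄).smul _).sub (isMF_E4 3)
    have h2 : IsMF (G0 3) 4 ((ModularForm.E₄ : ℍ → ℂ) - dil 3 ModularForm.E₄) :=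
      (isMF_E4 3).sub (isMF_dil 3 ModularForm.E₄)
    have h3 : IsMF (G0 3) 4 ((ModularForm.E₄ : ℍ → ℂ) + ((9 : ℤ) : ℂ) • dil 3 ModularForm.E₄) :=
      (isMF_E4 3).add ((isMF_dil 3 ModularForm.E₄).smul _)
    exact (((h1.pow 3).mul h2).weight_congr (by norm_num)).sub
      (((h3.mul (isMF_Delta 3)).weight_congr (by norm_num)).smul _)
  have h0 := formal_eq_zero 3 16 hmf _ hq.2 6 (by rw [index_three]; decide) (by
    apply X_pow_dvd_of_forall_hom
    intro Q _ φ hφ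
    have e1 := map_eisenstein4_six φ hφ
    have e2 := map_eisM φ 3 hφ
    have e3 : φ deltaF = φ X * (1 - φ X - φ X ^ 2 + φ X ^ 5) ^ 24 := by
      rw [map_deltaF, map_etaProd_six φ hφ]
    simp only [map_sub, map_add, map_mul, map_pow, map_intCast, e1, e2, e3]
    have := core_three_a (φ X) hφ
    push_cast
    linear_combination this)
  have h1 : ((81 : ℤ) : PowerSeries ℤ) = 81 := by norm_num
  have h2 : ((12288000 : ℤ) : PowerSeries ℤ) = 12288000 := by norm_num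
  have h3 : ((9 : ℤ) : PowerSeries ℤ) = 9 := by norm_num
  rw [h1, h2, h3] at h0
  exact sub_eq_zero.mp h0

/-- **Level 3, second identity**:
`(81 E₄(q³) - E₄(q)) (E₄(q) - E₄(q³))³ = 110592000 (E₄(q) + 9 E₄(q³)) Δ(q³)`. -/
theorem ident_three_b :
    (81 * eisM 3 - eisenstein4) * (eisenstein4 - eisM 3) ^ 3 =
      110592000 * ((eisenstein4 + 9 * eisM 3) * deltaM 3) := by
  have hA := hasQ_E4
  have hB := hasQ_eisM 3
  have hD := hasQ_deltaM 3
  have hq := ((hB.smul 81).sub hA).mul ((hA.sub hB).pow 3) |>.sub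
    (((hA.add (hB.smul 9)).mul hD).smul 110592000)
  have hmf : IsMF (G0 3) 16 ((((81 : ℤ) : ℂ) • dil 3 ModularForm.E₄ - ModularForm.E₄) *
      (ModularForm.E₄ - dil 3 ModularForm.E₄) ^ 3 - ((110592000 : ℤ) : ℂ) •
        ((ModularForm.E₄ + ((9 : ℤ) : ℂ) • dil 3 ModularForm.E₄) * dil 3 DeltaMF)) := by
    have h1 : IsMF (G0 3) 4 (((81 : ℤ) : ℂ) • dil 3 ModularForm.E₄ - ModularForm.E₄) :=
      ((isMF_dil 3 ModularForm.E₄).smul _).sub (isMF_E4 3)
    have h2 : IsMF (G0 3) 4 ((ModularForm.E₄ : ℍ → ℂ) - dil 3 ModularForm.E₄) :=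
      (isMF_E4 3).sub (isMF_dil 3 ModularForm.E₄)
    have h3 : IsMF (G0 3) 4 ((ModularForm.E₄ : ℍ → ℂ) + ((9 : ℤ) : ℂ) • dil 3 ModularForm.E₄) :=
      (isMF_E4 3).add ((isMF_dil 3 ModularForm.E₄).smul _)
    exact ((h1.mul (h2.pow 3)).weight_congr (by norm_num)).sub
      (((h3.mul (isMF_dil 3 DeltaMF)).weight_congr (by norm_num)).smul _)
  have h0 := formal_eq_zero 3 16 hmf _ hq.2 6 (by rw [index_three]; decide) (by
    apply X_pow_dvd_of_forall_hom
    intro Q _ φ hφ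
    have e1 := map_eisenstein4_six φ hφ
    have e2 := map_eisM φ 3 hφ
    have e3 := map_deltaM φ 3 hφ
    simp only [map_sub, map_add, map_mul, map_pow, map_intCast, e1, e2, e3]
    have := core_three_b (φ X) hφ
    push_cast
    linear_combination this)
  have h1 : ((81 : ℤ) : PowerSeries ℤ) = 81 := by norm_num
  have h2 : ((110592000 : ℤ) : PowerSeries ℤ) = 110592000 := by norm_num
  have h3 : ((9 : ℤ) : PowerSeries ℤ) = 9 := by norm_num
  rw [h1, h2, h3] at h0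
  exact sub_eq_zero.mp h0

end

end Fermat.Agent.S18.M11
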